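import Fermat.Agent.S55.Fc.LES.Delta1

/-!
# S55 F-con 1d: exactness of the LES at `H¹(B), H¹(C)`
-/

set_option autoImplicit false

noncomputable section

namespace Fermat.Agent.S55

variable {k : Type*} [CommRing k] {G : Type} [Group G]
variable {A B C : Type*} [AddCommGroup A] [Module k A] [AddCommGroup B] [Module k B]
  [AddCommGroup C] [Module k C]

namespace SES

variable {ρA : Representation k G A} {ρB : Representation k G B} {ρC : Representation k G C}
variable (E : SES ρA ρB ρC) (L : Lev G)

include E in
/-- a cochain with values in `A` is level as soon as its image in `B` is. -/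
lemma isLev₁_of_i {a : G → A} (h : IsLev₁ L (fun g => E.i (a g))) : IsLev₁ L a := by
  obtain ⟨U, hU, hh⟩ := h
  exact ⟨U, hU, fun g u hu => E.inj (hh g u hu)⟩

/-- [LES-d] -/
lemma exact_H1 (hB : IsDiscrete L ρB) : Function.Exact (E.iH L).H1map (E.πH L).H1map := by
  intro c
  induction c using H1_induction with
  | h x =>
  constructor
  · intro h
    rw [PairHom.H1map_mk, H1π_eq_zero_iff, mem_B1_iff] at h
    obtain ⟨m, hm⟩ := h
    obtain ⟨b, rfl⟩ := E.surj m
    have hker : ∀ g, ∃ a : A, E.i a = (x : G → B) g - (ρB g b - b) := by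
      intro g
      apply (E.exact _).mp
      have := hm g
      simp only [PairHom.Z1map_coe, PairHom.c1_apply] at this
      change E.π ((x : G → B) g) = _ at this
      rw [map_sub, map_sub, E.hπ, this, sub_self]
    choose a ha using hker
    have hlev : IsLev₁ L a := by
      apply E.isLev₁_of_i L
      simp only [ha]
      exact (Z1.isLev x).map₂ (d0_isLev₁ hB b) (· - ·)
    have hcoc : ∀ g h, a (g * h) = ρA g (a h) + a g := by
      intro g h
      apply E.inj
      rw [map_add, E.hi, ha, ha, ha, Z1.mul x g h, map_mul, Module.End.mul_apply, map_sub,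
        map_sub]
      abel
    refine ⟨H1π L ρA (Z1.mk a hlev hcoc), ?_⟩
    rw [PairHom.H1map_mk, H1π_eq_iff]
    refine ⟨-b, fun g => ?_⟩
    change E.i (a g) - (x : G → B) g = _
    rw [ha, map_neg]
    abel
  · rintro ⟨c', hc'⟩
    induction c' using H1_induction with
    | h a =>
    rw [← hc', PairHom.H1map_mk, PairHom.H1map_mk, H1π_eq_zero_iff, mem_B1_iff]
    refine ⟨0, fun g => ?_⟩
    change E.π (E.i ((a : G → A) g)) = _
    rw [E.exact.apply_apply_eq_zero]
    simp

/-- [LES-d] -/
lemma exact_H1_δ1 (hB : IsDiscrete L ρB) : Function.Exact (E.πH L).H1map (E.δ1 L hB) := by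
  intro c
  induction c using H1_induction with
  | h x =>
  constructor
  · intro h
    obtain ⟨y, z, hy, hπ, hz⟩ := E.exists_lift1 L hB x
    rw [E.δ1_eq L hB x y z hy hπ hz, H2π_eq_zero_iff, mem_B2_iff] at h
    obtain ⟨a, ha, haz⟩ := h
    have hlev : IsLev₁ L (fun g => y g - E.i (a g)) := hy.map₂ (ha.comp E.i) (· - ·)
    have hcoc : ∀ g h, (fun g => y g - E.i (a g)) (g * h)
        = ρB g ((fun g => y g - E.i (a g)) h) + (fun g => y g - E.i (a g)) g := by
      intro g h
      have h1 := hz g h
      rw [haz g h, map_add, map_sub, E.hi] at h1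
      simp only [map_sub]
      have h2 : y (g * h) - E.i (a (g * h))
          = (ρB g (y h) - ρB g (E.i (a h)) + (y g - E.i (a g)))
            - ((ρB g (y h) - y (g * h) + y g)
              - (ρB g (E.i (a h)) - E.i (a (g * h)) + E.i (a g))) := by abel
      rw [h2, h1, sub_self, sub_zero]
    refine ⟨H1π L ρB (Z1.mk _ hlev hcoc), ?_⟩
    rw [PairHom.H1map_mk]
    congr 1
    apply Subtype.ext
    funext g
    change E.π (y g - E.i (a g)) = _
    rw [map_sub, E.exact.apply_apply_eq_zero, sub_zero, hπ]
  · rintro ⟨c', hc'⟩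
    induction c' using H1_induction with
    | h y =>
    rw [← hc', PairHom.H1map_mk,
      E.δ1_eq L hB ((E.πH L).Z1map y) (y : G → B) 0 (Z1.isLev y) (fun g => rfl) ?_, map_zero]
    intro g h
    rw [Z1.mul y g h]
    simp

end SES

end Fermat.Agent.S55

end
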