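import Fermat.Agent.S55.Fc.LES.Delta1

/-!
# S55 F-con 1e: exactness of the LES at `H²(A), H²(B)`
-/

set_option autoImplicit false

noncomputable section

namespace Fermat.Agent.S55

variable {k : Type*} [CommRing k] {G : Type} [Group G]
variable {A B C : Type*} [AddCommGroup A] [Module k A] [AddCommGroup B] [Module k B]
  [AddCommGroup C] [Module k C]

namespace SES

variable {ρA : Representation k G A} {ρB : Representation k G B} {ρC : Representation k G C}
variable (E : SES ρA ρB ρC) (L : Lev G)

lemma exact2_π_i (a : A) : E.π (E.i a) = 0 := (E.exact (E.i a)).2 ⟨a, rfl⟩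

/-- [LES-e] -/
lemma exact_δ1_H2 (hB : IsDiscrete L ρB) : Function.Exact (E.δ1 L hB) (E.iH L).H2map := by
  intro c
  constructor
  · induction c using H2_induction with
    | h z =>
      intro hz
      rw [PairHom.H2map_mk, H2π_eq_zero_iff, mem_B2_iff] at hz
      obtain ⟨y, hy, hyz⟩ := hz
      have hyz' : ∀ g h, E.i ((z : G × G → A) (g, h)) = ρB g (y h) - y (g * h) + y g := hyz
      have hx : ∀ g h, E.π (y (g * h)) = ρC g (E.π (y h)) + E.π (y g) := by
        intro g h
        have h1 := congrArg E.π (hyz' g h)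
        rw [E.exact2_π_i, map_add, map_sub, E.hπ] at h1
        have h2 : (ρC g (E.π (y h)) + E.π (y g)) - E.π (y (g * h)) = 0 := by
          rw [h1]; abel
        exact (sub_eq_zero.1 h2).symm
      exact ⟨H1π L ρC (Z1.mk (fun g => E.π (y g)) (hy.comp E.π) hx),
        E.δ1_eq L hB _ y z hy (fun _ => rfl) hyz'⟩
  · rintro ⟨c', rfl⟩
    induction c' using H1_induction with
    | h x =>
      obtain ⟨y, z, hy, hyx, hyz⟩ := E.exists_lift1 L hB x
      rw [E.δ1_eq L hB x y z hy hyx hyz, PairHom.H2map_mk, H2π_eq_zero_iff, mem_B2_iff]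
      exact ⟨y, hy, hyz⟩

/-- [LES-e] -/
lemma exact_H2 (hB : IsDiscrete L ρB) : Function.Exact (E.iH L).H2map (E.πH L).H2map := by
  intro c
  constructor
  · induction c using H2_induction with
    | h x =>
      intro hx
      rw [PairHom.H2map_mk, H2π_eq_zero_iff, mem_B2_iff] at hx
      obtain ⟨c0, hc0, hxc⟩ := hx
      have hxc' : ∀ g h, E.π ((x : G × G → B) (g, h)) = ρC g (c0 h) - c0 (g * h) + c0 g := hxc
      -- lift `c0`
      set y : G → B := Function.surjInv E.surj ∘ c0 with hy
      have hylev : IsLev₁ L y := hc0.comp _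
      have hπy : ∀ g, E.π (y g) = c0 g := fun g => Function.surjInv_eq E.surj (c0 g)
      -- the corrected cocycle
      have hd1 : d1 ρB y ∈ Z2 L ρB := B2_le_Z2 hB ⟨y, hylev, rfl⟩
      set w : ↥(Z2 L ρB) := x - ⟨d1 ρB y, hd1⟩ with hw
      have hwv : ∀ g h, (w : G × G → B) (g, h) =
          (x : G × G → B) (g, h) - (ρB g (y h) - y (g * h) + y g) := fun g h => rfl
      have hπw : ∀ p : G × G, E.π ((w : G × G → B) p) = 0 := by
        rintro ⟨g, h⟩
        rw [hwv, map_sub, hxc', map_add, map_sub, E.hπ, hπy, hπy, hπy, sub_self]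
      have hex : ∀ p : G × G, ∃ a : A, E.i a = (w : G × G → B) p := fun p =>
        (E.exact _).1 (hπw p)
      set z : G × G → A := Function.invFun E.i ∘ (w : G × G → B) with hz
      have hiz : ∀ p : G × G, E.i (z p) = (w : G × G → B) p := fun p =>
        Function.invFun_eq (hex p)
      have hzlev : IsLev₂ L z := (Z2.isLev w).comp _
      have hzc : ∀ g h j, z (g * h, j) + z (g, h) = ρA g (z (h, j)) + z (g, h * j) := by
        intro g h j
        apply E.inj
        rw [map_add, map_add, E.hi, hiz, hiz, hiz, hiz]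
        exact Z2.cocycle w g h j
      refine ⟨H2π L ρA (Z2.mk z hzlev hzc), ?_⟩
      rw [PairHom.H2map_mk, H2π_eq_iff]
      refine ⟨-y, ?_, ?_⟩
      · exact hylev.comp (fun b => -b)
      · intro g h
        have h1 : (((E.iH L).Z2map (Z2.mk z hzlev hzc) : ↥(Z2 L ρB)) : G × G → B) (g, h)
            = E.i (z (g, h)) := rfl
        rw [h1, hiz, hwv]
        simp only [Pi.neg_apply, map_neg]
        abel
  · rintro ⟨c', rfl⟩
    induction c' using H2_induction with
    | h z =>
      rw [PairHom.H2map_mk, PairHom.H2map_mk, H2π_eq_zero_iff]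
      have h0 : (((E.πH L).Z2map ((E.iH L).Z2map z) : ↥(Z2 L ρC)) : G × G → C) = 0 := by
        funext p
        exact E.exact2_π_i _
      rw [h0]
      exact zero_mem _

end SES

end Fermat.Agent.S55

end
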