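import Fermat.Agent.S55.Fc.LES.Defs

/-!
# S55 F-con 1b: the connecting homomorphism `δ¹ : H¹(C) → H²(A)`
-/

set_option autoImplicit false

noncomputable section

namespace Fermat.Agent.S55

variable {k : Type*} [CommRing k] {G : Type} [Group G]
variable {A B C : Type*} [AddCommGroup A] [Module k A] [AddCommGroup B] [Module k B]
  [AddCommGroup C] [Module k C]

namespace SES

variable {ρA : Representation k G A} {ρB : Representation k G B} {ρC : Representation k G C}
variable (E : SES ρA ρB ρC) (L : Lev G)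

/-- `Function.invFun E.i` is a section of `i` on `ker π`. -/
lemma δ1_i_invFun {b : B} (hb : E.π b = 0) : E.i (Function.invFun E.i b) = b :=
  Function.invFun_eq ((E.exact b).mp hb)

/-- [LES-b] every 1-cocycle of `C` has data as in `exists_δ1`. -/
lemma exists_lift1 (hB : IsDiscrete L ρB) (x : ↥(Z1 L ρC)) :
    ∃ (y : G → B) (z : ↥(Z2 L ρA)), IsLev₁ L y ∧ (∀ g, E.π (y g) = (x : G → C) g) ∧
      ∀ g h, E.i ((z : G × G → A) (g, h)) = ρB g (y h) - y (g * h) + y g := by
  set y : G → B := Function.surjInv E.surj ∘ (x : G → C) with hy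
  have hyL : IsLev₁ L y := (Z1.isLev x).comp _
  have hyπ : ∀ g, E.π (y g) = (x : G → C) g := fun g => Function.surjInv_eq E.surj _
  have hker : ∀ p : G × G, E.π (d1 ρB y p) = 0 := by
    rintro ⟨g, h⟩
    rw [d1_apply, map_add, map_sub, E.hπ, hyπ, hyπ, hyπ, Z1.mul x g h]
    abel
  set z : G × G → A := Function.invFun E.i ∘ d1 ρB y with hz
  have hzi : ∀ p, E.i (z p) = d1 ρB y p := fun p => E.δ1_i_invFun (hker p)
  have hzL : IsLev₂ L z := (d1_isLev₂ hB hyL).comp _
  refine ⟨y, Z2.mk z hzL ?_, hyL, hyπ, fun g h => hzi (g, h)⟩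
  intro g h j
  apply E.inj
  rw [map_add, map_add, E.hi, hzi, hzi, hzi, hzi]
  simp only [d1_apply, map_add, map_sub, mul_assoc, map_mul, Module.End.mul_apply]
  abel

/-- well-definedness of `δ¹`. -/
lemma δ1_wd (hB : IsDiscrete L ρB) (x x' : ↥(Z1 L ρC)) (y y' : G → B) (z z' : ↥(Z2 L ρA))
    (h0 : IsLev₁ L y) (h1 : ∀ g, E.π (y g) = (x : G → C) g)
    (h2 : ∀ g h, E.i ((z : G × G → A) (g, h)) = ρB g (y h) - y (g * h) + y g)
    (h0' : IsLev₁ L y') (h1' : ∀ g, E.π (y' g) = (x' : G → C) g)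
    (h2' : ∀ g h, E.i ((z' : G × G → A) (g, h)) = ρB g (y' h) - y' (g * h) + y' g)
    (hxx : H1π L ρC x = H1π L ρC x') : H2π L ρA z = H2π L ρA z' := by
  obtain ⟨m, hm⟩ := (H1π_eq_iff x x').mp hxx
  obtain ⟨b, rfl⟩ := E.surj m
  set w : G → B := fun g => y g - y' g - d0 ρB b g with hw
  have hwL : IsLev₁ L w := (h0.map₂ h0' (· - ·)).map₂ (d0_isLev₁ hB b) (· - ·)
  have hker : ∀ g, E.π (w g) = 0 := by
    intro g
    rw [hw]
    simp only [d0_apply, map_sub, E.hπ, h1, h1', hm g]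
    abel
  set a : G → A := Function.invFun E.i ∘ w with ha
  have hai : ∀ g, E.i (a g) = w g := fun g => E.δ1_i_invFun (hker g)
  rw [H2π_eq_iff]
  refine ⟨a, hwL.comp _, fun g h => ?_⟩
  apply E.inj
  rw [map_sub, h2, h2', map_add, map_sub, E.hi, hai, hai, hai, hw]
  simp only [d0_apply, map_sub, map_mul, Module.End.mul_apply]
  abel

/-- [LES-b] existence of `δ¹`. -/
lemma exists_δ1 (hB : IsDiscrete L ρB) : ∃ δ : H1 L ρC →ₗ[k] H2 L ρA,
    ∀ (x : ↥(Z1 L ρC)) (y : G → B) (z : ↥(Z2 L ρA)), IsLev₁ L y →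
      (∀ g, E.π (y g) = (x : G → C) g) →
      (∀ g h, E.i ((z : G × G → A) (g, h)) = ρB g (y h) - y (g * h) + y g) →
      δ (H1π L ρC x) = H2π L ρA z := by
  -- a set-theoretic version
  let rep : H1 L ρC → ↥(Z1 L ρC) := fun c => (Submodule.mkQ_surjective _ c).choose
  have hrep : ∀ c, H1π L ρC (rep c) = c := fun c => (Submodule.mkQ_surjective _ c).choose_spec
  let f : H1 L ρC → H2 L ρA := fun c =>
    H2π L ρA (E.exists_lift1 L hB (rep c)).choose_spec.choose
  have hf : ∀ (x : ↥(Z1 L ρC)) (y : G → B) (z : ↥(Z2 L ρA)), IsLev₁ L y →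
      (∀ g, E.π (y g) = (x : G → C) g) →
      (∀ g h, E.i ((z : G × G → A) (g, h)) = ρB g (y h) - y (g * h) + y g) →
      f (H1π L ρC x) = H2π L ρA z := by
    intro x y z h0 h1 h2
    obtain ⟨q0, q1, q2⟩ := (E.exists_lift1 L hB (rep (H1π L ρC x))).choose_spec.choose_spec
    exact E.δ1_wd L hB _ x _ y _ z q0 q1 q2 h0 h1 h2 (hrep _)
  refine ⟨{ toFun := f, map_add' := ?_, map_smul' := ?_ }, hf⟩
  · intro c c'
    induction c using H1_induction with | h x => ?_
    induction c' using H1_induction with | h x' => ?_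
    obtain ⟨y, z, h0, h1, h2⟩ := E.exists_lift1 L hB x
    obtain ⟨y', z', h0', h1', h2'⟩ := E.exists_lift1 L hB x'
    rw [hf x y z h0 h1 h2, hf x' y' z' h0' h1' h2', ← map_add, ← map_add]
    refine hf (x + x') (y + y') (z + z') (h0.map₂ h0' (· + ·)) (fun g => ?_) (fun g h => ?_)
    · simp [h1, h1']
    · simp only [Submodule.coe_add, Pi.add_apply, map_add, h2, h2']
      abel
  · intro r c
    induction c using H1_induction with | h x => ?_
    obtain ⟨y, z, h0, h1, h2⟩ := E.exists_lift1 L hB x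
    rw [RingHom.id_apply, hf x y z h0 h1 h2, ← map_smul, ← map_smul]
    refine hf (r • x) (r • y) (r • z) (h0.comp (r • ·)) (fun g => ?_) (fun g h => ?_)
    · simp [h1]
    · simp only [Submodule.coe_smul, Pi.smul_apply, map_smul, h2, smul_add, smul_sub]

/-- the connecting homomorphism `H¹(C) → H²(A)` -/
def δ1 (hB : IsDiscrete L ρB) : H1 L ρC →ₗ[k] H2 L ρA := (E.exists_δ1 L hB).choose

lemma δ1_eq (hB : IsDiscrete L ρB) (x : ↥(Z1 L ρC)) (y : G → B) (z : ↥(Z2 L ρA))
    (h0 : IsLev₁ L y) (h1 : ∀ g, E.π (y g) = (x : G → C) g)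
    (h2 : ∀ g h, E.i ((z : G × G → A) (g, h)) = ρB g (y h) - y (g * h) + y g) :
    E.δ1 L hB (H1π L ρC x) = H2π L ρA z :=
  (E.exists_δ1 L hB).choose_spec x y z h0 h1 h2

end SES

end Fermat.Agent.S55

end
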