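import Fermat.Agent.S55.Fc.LES.Delta0
import Fermat.Agent.S55.Fc.LES.Delta1

/-!
# S55 F-con 1f: naturality of the connecting homomorphisms
-/

set_option autoImplicit false

noncomputable section

namespace Fermat.Agent.S55

variable {k : Type*} [CommRing k] {G : Type} [Group G]
variable {A B C : Type*} [AddCommGroup A] [Module k A] [AddCommGroup B] [Module k B]
  [AddCommGroup C] [Module k C]

section naturality

variable {H : Type} [Group H]
variable {A' B' C' : Type*} [AddCommGroup A'] [Module k A'] [AddCommGroup B'] [Module k B']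
  [AddCommGroup C'] [Module k C']
variable {ρA : Representation k G A} {ρB : Representation k G B} {ρC : Representation k G C}
variable {σA : Representation k H A'} {σB : Representation k H B'} {σC : Representation k H C'}
variable {LG : Lev G} {LH : Lev H}

/-- [LES-f] naturality of `δ⁰` with respect to a morphism of short exact sequences
(change of group allowed). -/
lemma SES.δ0_natural (E : SES ρA ρB ρC) (E' : SES σA σB σC) (hB : IsDiscrete LG ρB)
    (hB' : IsDiscrete LH σB) (a : PairHom LG LH ρA σA) (b : PairHom LG LH ρB σB)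
    (c : PairHom LG LH ρC σC) (hab : a.f = b.f) (hbc : b.f = c.f)
    (h1 : ∀ x, E'.i (a.φ x) = b.φ (E.i x)) (h2 : ∀ x, E'.π (b.φ x) = c.φ (E.π x))
    (x : ρC.invariants) : a.H1map (E.δ0 LG hB x) = E'.δ0 LH hB' (c.H0map x) := by
  obtain ⟨b₀, z, hb, hz⟩ := E.exists_lift0 LG hB x
  rw [E.δ0_eq LG hB x b₀ z hb hz, PairHom.H1map_mk]
  symm
  refine E'.δ0_eq LH hB' (c.H0map x) (b.φ b₀) (a.Z1map z) ?_ ?_
  · rw [h2, hb, PairHom.H0map_coe]
  · intro h
    rw [PairHom.Z1map_coe, PairHom.c1_apply, h1, hz, map_sub, hab, b.compat]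

/-- [LES-f] naturality of `δ¹`. -/
lemma SES.δ1_natural (E : SES ρA ρB ρC) (E' : SES σA σB σC) (hB : IsDiscrete LG ρB)
    (hB' : IsDiscrete LH σB) (a : PairHom LG LH ρA σA) (b : PairHom LG LH ρB σB)
    (c : PairHom LG LH ρC σC) (hab : a.f = b.f) (hbc : b.f = c.f)
    (h1 : ∀ x, E'.i (a.φ x) = b.φ (E.i x)) (h2 : ∀ x, E'.π (b.φ x) = c.φ (E.π x))
    (x : H1 LG ρC) : a.H2map (E.δ1 LG hB x) = E'.δ1 LH hB' (c.H1map x) := by
  induction x using H1_induction with
  | h x =>
    obtain ⟨y, z, hy, hπ, hz⟩ := E.exists_lift1 LG hB x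
    rw [E.δ1_eq LG hB x y z hy hπ hz, PairHom.H2map_mk, PairHom.H1map_mk]
    symm
    refine E'.δ1_eq LH hB' (c.Z1map x) (b.c1 y) (a.Z2map z) (b.c1_isLev hy) ?_ ?_
    · intro h
      rw [PairHom.c1_apply, h2, hπ, PairHom.Z1map_coe, PairHom.c1_apply, hbc]
    · intro g h
      rw [PairHom.Z2map_coe, PairHom.c2_apply, h1, hz, map_add, map_sub, hab, b.compat,
        PairHom.c1_apply, PairHom.c1_apply, PairHom.c1_apply, map_mul]

end naturality

end Fermat.Agent.S55

end
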