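import Fermat.Agent.S55.Fc.Basic

/-!
# S55 F-con 1 (Defs): short exact sequences of representations
-/

set_option autoImplicit false

noncomputable section

namespace Fermat.Agent.S55

variable {k : Type*} [CommRing k] {G : Type} [Group G]
variable {A B C : Type*} [AddCommGroup A] [Module k A] [AddCommGroup B] [Module k B]
  [AddCommGroup C] [Module k C]

/-- A short exact sequence of representations `0 → A → B → C → 0`. -/
structure SES (ρA : Representation k G A) (ρB : Representation k G B)
    (ρC : Representation k G C) where
  i : A →ₗ[k] B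
  π : B →ₗ[k] C
  hi : ∀ g a, i (ρA g a) = ρB g (i a)
  hπ : ∀ g b, π (ρB g b) = ρC g (π b)
  inj : Function.Injective i
  surj : Function.Surjective π
  exact : Function.Exact i π


namespace SES

variable {ρA : Representation k G A} {ρB : Representation k G B} {ρC : Representation k G C}
variable (E : SES ρA ρB ρC) (L : Lev G)

/-- the `PairHom` of `i` -/
abbrev iH : PairHom L L ρA ρB := PairHom.ofLinear L E.i E.hi

/-- the `PairHom` of `π` -/
abbrev πH : PairHom L L ρB ρC := PairHom.ofLinear L E.π E.hπ

include E in
lemma isDiscrete_left (hB : IsDiscrete L ρB) : IsDiscrete L ρA := by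
  intro a
  obtain ⟨U, hU, h⟩ := hB (E.i a)
  exact ⟨U, hU, fun u hu => E.inj (by rw [E.hi, h u hu])⟩

include E in
lemma isDiscrete_right (hB : IsDiscrete L ρB) : IsDiscrete L ρC := by
  intro c
  obtain ⟨b, rfl⟩ := E.surj c
  obtain ⟨U, hU, h⟩ := hB b
  exact ⟨U, hU, fun u hu => by rw [← E.hπ, h u hu]⟩

end SES

section comp
variable {H : Type} [Group H]
variable {ρA : Representation k G A} {ρB : Representation k G B} {ρC : Representation k G C}

/-- restriction of a short exact sequence along a homomorphism -/
def SES.comp (E : SES ρA ρB ρC) (f : H →* G) : SES (ρA.comp f) (ρB.comp f) (ρC.comp f) where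
  i := E.i
  π := E.π
  hi := fun g a => E.hi (f g) a
  hπ := fun g b => E.hπ (f g) b
  inj := E.inj
  surj := E.surj
  exact := E.exact

end comp

/-! #### quotient representations, so that every subrepresentation gives a `SES` -/

section quotient

variable {ρB : Representation k G B}

/-- the restriction of `ρB` to an invariant submodule -/
def subRep (ρB : Representation k G B) (W : Submodule k B) (hW : ∀ g, ∀ w ∈ W, ρB g w ∈ W) :
    Representation k G W where
  toFun g := (ρB g).restrict (hW g)
  map_one' := by ext; simp
  map_mul' a b := by ext; simp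

/-- the quotient of `ρB` by an invariant submodule -/
def quotRep (ρB : Representation k G B) (W : Submodule k B) (hW : ∀ g, ∀ w ∈ W, ρB g w ∈ W) :
    Representation k G (B ⧸ W) where
  toFun g := W.mapQ W (ρB g) (hW g)
  map_one' := by ext; simp
  map_mul' a b := by ext; simp

@[simp] lemma subRep_apply (W : Submodule k B) (hW : ∀ g, ∀ w ∈ W, ρB g w ∈ W) (g : G) (w : W) :
    (subRep ρB W hW g w : B) = ρB g w := rfl

@[simp] lemma quotRep_mk (W : Submodule k B) (hW : ∀ g, ∀ w ∈ W, ρB g w ∈ W) (g : G) (b : B) :
    quotRep ρB W hW g (Submodule.Quotient.mk b) = Submodule.Quotient.mk (ρB g b) := rfl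

/-- the tautological short exact sequence `0 → W → B → B/W → 0` -/
def SES.ofSub (ρB : Representation k G B) (W : Submodule k B) (hW : ∀ g, ∀ w ∈ W, ρB g w ∈ W) :
    SES (subRep ρB W hW) ρB (quotRep ρB W hW) where
  i := W.subtype
  π := W.mkQ
  hi := fun _ _ => rfl
  hπ := fun _ _ => rfl
  inj := W.injective_subtype
  surj := W.mkQ_surjective
  exact := by
    intro b
    simp [Submodule.Quotient.mk_eq_zero]

/-- the short exact sequence `0 → A → B → B / i(A) → 0` attached to an injective intertwiner -/
def SES.ofInjective {ρA : Representation k G A} (i : A →ₗ[k] B) (hi : ∀ g a, i (ρA g a) = ρB g (i a))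
    (inj : Function.Injective i) :
    SES ρA ρB (quotRep ρB (LinearMap.range i) (by
      rintro g _ ⟨a, rfl⟩; exact ⟨ρA g a, hi g a⟩)) where
  i := i
  π := (LinearMap.range i).mkQ
  hi := hi
  hπ := fun _ _ => rfl
  inj := inj
  surj := Submodule.mkQ_surjective _
  exact := by
    intro b
    simp [Submodule.Quotient.mk_eq_zero]

/-- the short exact sequence `0 → ker π → B → C → 0` attached to a surjective intertwiner -/
def SES.ofSurjective {ρC : Representation k G C} (π : B →ₗ[k] C)
    (hπ : ∀ g b, π (ρB g b) = ρC g (π b)) (surj : Function.Surjective π) :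
    SES (subRep ρB (LinearMap.ker π) (by
      intro g w hw; rw [LinearMap.mem_ker] at hw ⊢; rw [hπ, hw, map_zero])) ρB ρC where
  i := (LinearMap.ker π).subtype
  π := π
  hi := fun _ _ => rfl
  hπ := hπ
  inj := Submodule.injective_subtype _
  surj := surj
  exact := by
    intro b
    simp

end quotient


end Fermat.Agent.S55

end
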