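import Fermat.Agent.S55.Fc.LES.Defs

/-!
# S55 F-con 1a: the connecting homomorphism `δ⁰ : H⁰(C) → H¹(A)`
-/

set_option autoImplicit false

noncomputable section

namespace Fermat.Agent.S55

variable {k : Type*} [CommRing k] {G : Type} [Group G]
variable {A B C : Type*} [AddCommGroup A] [Module k A] [AddCommGroup B] [Module k B]
  [AddCommGroup C] [Module k C]

namespace SES

variable {ρA : Representation k G A} {ρB : Representation k G B} {ρC : Representation k G C}
variable (E : SES ρA ρB ρC) (L : Lev G)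

/-- [LES-a] every invariant of `C` has data as in `exists_δ0`. -/
lemma exists_lift0 (hB : IsDiscrete L ρB) (c : ρC.invariants) :
    ∃ (b : B) (z : ↥(Z1 L ρA)), E.π b = c ∧ ∀ g, E.i ((z : G → A) g) = ρB g b - b := by
  obtain ⟨b, hb⟩ := E.surj c
  have hker : ∀ g, ∃ a, E.i a = ρB g b - b := by
    intro g
    apply (E.exact _).1
    rw [map_sub, E.hπ, hb, c.2 g, sub_self]
  choose z hz using hker
  have hlev : IsLev₁ L z := by
    obtain ⟨U, hU, h⟩ := d0_isLev₁ hB b
    refine ⟨U, hU, fun g u hu => E.inj ?_⟩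
    have := h g u hu
    simp only [d0_apply] at this
    rw [hz, hz, this]
  have hcoc : ∀ g h, z (g * h) = ρA g (z h) + z g := by
    intro g h
    apply E.inj
    rw [map_add, E.hi, hz, hz, hz, map_mul, Module.End.mul_apply, map_sub]
    abel
  exact ⟨b, Z1.mk z hlev hcoc, hb, hz⟩

include E in
/-- the class of the cocycle `z` does not depend on the choice of `(b, z)`. -/
lemma lift0_unique {c : C} {b b' : B} {z z' : ↥(Z1 L ρA)} (h1 : E.π b = c)
    (h2 : ∀ g, E.i ((z : G → A) g) = ρB g b - b) (h1' : E.π b' = c)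
    (h2' : ∀ g, E.i ((z' : G → A) g) = ρB g b' - b') : H1π L ρA z = H1π L ρA z' := by
  rw [H1π_eq_iff]
  obtain ⟨a, ha⟩ : ∃ a, E.i a = b - b' := by
    apply (E.exact _).1
    rw [map_sub, h1, h1', sub_self]
  refine ⟨a, fun g => E.inj ?_⟩
  rw [map_sub, map_sub, E.hi, h2, h2', ha, map_sub]
  abel

/-- [LES-a] existence of `δ⁰`. -/
lemma exists_δ0 (hB : IsDiscrete L ρB) : ∃ δ : ρC.invariants →ₗ[k] H1 L ρA,
    ∀ (c : ρC.invariants) (b : B) (z : ↥(Z1 L ρA)), E.π b = c →
      (∀ g, E.i ((z : G → A) g) = ρB g b - b) → δ c = H1π L ρA z := by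
  choose b z h1 h2 using E.exists_lift0 L hB
  refine ⟨⟨⟨fun c => H1π L ρA (z c), fun c c' => ?_⟩, fun r c => ?_⟩, fun c b' z' h1' h2' => ?_⟩
  · rw [← map_add]
    refine E.lift0_unique L (b := b (c + c')) (b' := b c + b c') (h1 _) (h2 _) ?_ fun g => ?_
    · rw [map_add, h1, h1]; rfl
    · rw [Submodule.coe_add, Pi.add_apply, map_add, h2, h2, map_add]
      abel
  · rw [RingHom.id_apply, ← map_smul]
    refine E.lift0_unique L (b := b (r • c)) (b' := r • b c) (h1 _) (h2 _) ?_ fun g => ?_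
    · rw [map_smul, h1]; rfl
    · rw [Submodule.coe_smul, Pi.smul_apply, map_smul, h2, map_smul, smul_sub]
  · exact E.lift0_unique L (h1 c) (h2 c) h1' h2'

/-- the connecting homomorphism `H⁰(C) → H¹(A)` -/
def δ0 (hB : IsDiscrete L ρB) : ρC.invariants →ₗ[k] H1 L ρA := (E.exists_δ0 L hB).choose

lemma δ0_eq (hB : IsDiscrete L ρB) (c : ρC.invariants) (b : B) (z : ↥(Z1 L ρA)) (h1 : E.π b = c)
    (h2 : ∀ g, E.i ((z : G → A) g) = ρB g b - b) : E.δ0 L hB c = H1π L ρA z :=
  (E.exists_δ0 L hB).choose_spec c b z h1 h2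

end SES

end Fermat.Agent.S55

end
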