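import Fermat.Agent.S55.Fc.LES.Delta0

/-!
# S55 F-con 1c: exactness of the LES at `H⁰(A), H⁰(B), H⁰(C), H¹(A)`
-/

set_option autoImplicit false

noncomputable section

namespace Fermat.Agent.S55

variable {k : Type*} [CommRing k] {G : Type} [Group G]
variable {A B C : Type*} [AddCommGroup A] [Module k A] [AddCommGroup B] [Module k B]
  [AddCommGroup C] [Module k C]

namespace SES

variable {ρA : Representation k G A} {ρB : Representation k G B} {ρC : Representation k G C}
variable (E : SES ρA ρB ρC) (L : Lev G)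

/-- [LES-c] -/
lemma H0_injective : Function.Injective (E.iH L).H0map := by
  intro x y h
  exact Subtype.ext (E.inj (congrArg Subtype.val h))

/-- [LES-c] -/
lemma exact_H0 : Function.Exact (E.iH L).H0map (E.πH L).H0map := by
  intro b
  constructor
  · intro h
    have h0 : E.π (b : B) = 0 := congrArg Subtype.val h
    obtain ⟨a, ha⟩ := (E.exact _).1 h0
    refine ⟨⟨a, fun g => E.inj ?_⟩, Subtype.ext ha⟩
    rw [E.hi, ha, b.2 g]
  · rintro ⟨a, rfl⟩
    exact Subtype.ext ((E.exact _).2 ⟨a, rfl⟩)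

/-- [LES-c] -/
lemma exact_H0_δ0 (hB : IsDiscrete L ρB) : Function.Exact (E.πH L).H0map (E.δ0 L hB) := by
  intro c
  constructor
  · intro h
    obtain ⟨b, z, h1, h2⟩ := E.exists_lift0 L hB c
    rw [E.δ0_eq L hB c b z h1 h2, H1π_eq_zero_iff, mem_B1_iff] at h
    obtain ⟨a, ha⟩ := h
    refine ⟨⟨b - E.i a, fun g => ?_⟩, Subtype.ext ?_⟩
    · have := h2 g
      rw [ha, map_sub, E.hi] at this
      rw [map_sub]
      have h3 : ρB g b = ρB g (E.i a) - E.i a + b := by rw [this]; abel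
      rw [h3]; abel
    · change E.π (b - E.i a) = c
      rw [map_sub, h1, (E.exact _).2 ⟨a, rfl⟩, sub_zero]
  · rintro ⟨b, rfl⟩
    rw [E.δ0_eq L hB _ b 0 rfl (fun g => by
      rw [b.2 g, sub_self]; exact map_zero _), map_zero]

/-- [LES-c] -/
lemma exact_δ0_H1 (hB : IsDiscrete L ρB) : Function.Exact (E.δ0 L hB) (E.iH L).H1map := by
  intro x
  induction x using H1_induction with
  | h z =>
    constructor
    · intro h
      rw [PairHom.H1map_mk, H1π_eq_zero_iff, mem_B1_iff] at h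
      obtain ⟨b, hb⟩ := h
      have hb' : ∀ g, E.i ((z : G → A) g) = ρB g b - b := hb
      refine ⟨⟨E.π b, fun g => ?_⟩, E.δ0_eq L hB _ b z rfl hb'⟩
      rw [← E.hπ, ← sub_eq_zero, ← map_sub, ← hb']
      exact (E.exact _).2 ⟨_, rfl⟩
    · rintro ⟨c, hc⟩
      obtain ⟨b, z', h1, h2⟩ := E.exists_lift0 L hB c
      rw [E.δ0_eq L hB c b z' h1 h2] at hc
      rw [← hc, PairHom.H1map_mk, H1π_eq_zero_iff, mem_B1_iff]
      exact ⟨b, h2⟩

end SES

end Fermat.Agent.S55

end
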